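/-
P-CFT / [HASSE] (sub-lead helper97): definitions and formal lemmas.

Currency = helper78's `LocalRows`: `E : IntermediateField ℚ ℚ̄`, `G_E = ↥E.fixingSubgroup`,
multiplicative level 2-cochains `c : G_E × G_E → ℚ̄ˣ`, `IsLvlMulCoboundary₂E E c`,
`resCochain₂ (h : E ≤ E') c`.  Places of `ℚ̄` are valuation subrings `A` (prelude
`ValuationSubring.LiesOverPrime`), the local field of `K` at `A` is `K ⊔ decField A` with
`decField A` the fixed field of the decomposition group of `A`.
-/
import Fermat.Agent.H78.CFT.LocalInvRows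

set_option autoImplicit false

namespace Fermat.Agent.H97.Hasse

open Fermat.Agent.H13.Cft Fermat.Agent.H78.CFT

/-- A Brauer cocycle of `E`: a level 2-cocycle of `G_E` with values in `ℚ̄ˣ`. -/
structure IsBrCocycle (E : IntermediateField ℚ Qb)
    (c : E.fixingSubgroup × E.fixingSubgroup → Qbˣ) : Prop where
  lvl : IsLvlFun₂ (lvlE E) c
  cocycle : IsMulCocycle₂E E c

/-- `c` and `c'` are cohomologous through level cochains. -/
def IsLvlCohomologous (E : IntermediateField ℚ Qb)
    (c c' : E.fixingSubgroup × E.fixingSubgroup → Qbˣ) : Prop :=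
  IsLvlMulCoboundary₂E E (fun x => c x / c' x)

/-- The decomposition field of a place `A` of `ℚ̄`. -/
noncomputable def decField (A : ValuationSubring Qb) : IntermediateField ℚ Qb :=
  IntermediateField.fixedField (A.decompositionSubgroup ℚ)

/-- The local field of `K` at the place `A` of `ℚ̄` (the henselisation of `K` at `A ∩ K`). -/
noncomputable def locFieldAt (K : IntermediateField ℚ Qb) (A : ValuationSubring Qb) :
    IntermediateField ℚ Qb :=
  K ⊔ decField A

theorem le_locFieldAt (K : IntermediateField ℚ Qb) (A : ValuationSubring Qb) :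
    K ≤ locFieldAt K A := le_sup_left

/-- `c` is locally trivial at the place `A`. -/
def IsLocTrivAtE (K : IntermediateField ℚ Qb) (A : ValuationSubring Qb)
    (c : K.fixingSubgroup × K.fixingSubgroup → Qbˣ) : Prop :=
  IsLvlMulCoboundary₂E (locFieldAt K A) (resCochain₂ (le_locFieldAt K A) c)

/-- `c` is locally trivial at every finite place. -/
def IsLocTriv (K : IntermediateField ℚ Qb)
    (c : K.fixingSubgroup × K.fixingSubgroup → Qbˣ) : Prop :=
  ∀ (q : ℕ), q.Prime → ∀ A : ValuationSubring Qb, A.LiesOverPrime q → IsLocTrivAtE K A c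

/-- `c` is split by `L ≥ K`. -/
def IsSplitBy {K L : IntermediateField ℚ Qb} (h : K ≤ L)
    (c : K.fixingSubgroup × K.fixingSubgroup → Qbˣ) : Prop :=
  IsLvlMulCoboundary₂E L (resCochain₂ h c)

/-- `L / K` is a finite Galois extension of degree `n` (`K ≤ L` intermediate fields of
`ℚ̄ / ℚ`). -/
structure IsGalDeg {K L : IntermediateField ℚ Qb} (h : K ≤ L) (n : ℕ) : Prop where
  fin : FiniteDimensional K (IntermediateField.extendScalars h)
  gal : IsGalois K (IntermediateField.extendScalars h)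
  deg : Module.finrank K (IntermediateField.extendScalars h) = n

/-- `K ≤ M` for an intermediate field `M` of `ℚ̄ / K`, viewed over `ℚ`. -/
theorem le_restrictScalars {K : IntermediateField ℚ Qb} (M : IntermediateField K Qb) :
    K ≤ M.restrictScalars ℚ := fun x hx => M.algebraMap_mem ⟨x, hx⟩

/-! ### Formal lemmas on restriction -/

section res

variable {K K' K'' : IntermediateField ℚ Qb}

/-- The inclusion `G_{K'} → G_K`. -/
noncomputable abbrev incl (h : K ≤ K') : K'.fixingSubgroup →* K.fixingSubgroup :=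
  Subgroup.inclusion (IntermediateField.fixingSubgroup_le h)

theorem resCochain₂_apply (h : K ≤ K') {M : Type}
    (c : K.fixingSubgroup × K.fixingSubgroup → M) (x : K'.fixingSubgroup × K'.fixingSubgroup) :
    resCochain₂ h c x = c (incl h x.1, incl h x.2) := rfl

theorem resCochain₂_trans (h : K ≤ K') (h' : K' ≤ K'') {M : Type}
    (c : K.fixingSubgroup × K.fixingSubgroup → M) :
    resCochain₂ h' (resCochain₂ h c) = resCochain₂ (h.trans h') c := rfl

theorem coe_incl (h : K ≤ K') (g : K'.fixingSubgroup) :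
    ((incl h g : K.fixingSubgroup) : Qb ≃ₐ[ℚ] Qb) = (g : Qb ≃ₐ[ℚ] Qb) := rfl

/-- A level of `G_K` restricts to a level of `G_{K'}`. -/
theorem comap_incl_mem_lvl (h : K ≤ K') {N : Subgroup K.fixingSubgroup}
    (hN : N ∈ (lvlE K).sets) : N.comap (incl h) ∈ (lvlE K').sets := by
  obtain ⟨hNn, hNf, F, hF, hFN⟩ := hN
  haveI := hNn
  haveI := hNf
  refine ⟨inferInstance, ?_, F, hF, ?_⟩
  · exact (FiniteIndexNormalSubgroup.comap (incl h)
      (FiniteIndexNormalSubgroup.ofSubgroup N)).isFiniteIndex'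
  · intro g hg
    rw [Subgroup.mem_comap] at hg ⊢
    exact hFN (Subgroup.mem_comap.mpr hg)

theorem isLvlFun₁_res (h : K ≤ K') {M : Type} {x : K.fixingSubgroup → M}
    (hx : IsLvlFun₁ (lvlE K) x) : IsLvlFun₁ (lvlE K') (fun g => x (incl h g)) := by
  obtain ⟨N, hN, hxN⟩ := hx
  refine ⟨N.comap (incl h), comap_incl_mem_lvl h hN, fun g n hn => ?_⟩
  show x (incl h (g * n)) = x (incl h g)
  rw [map_mul]
  exact hxN _ _ (Subgroup.mem_comap.mp hn)

theorem isLvlFun₂_res (h : K ≤ K') {M : Type} {c : K.fixingSubgroup × K.fixingSubgroup → M}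
    (hc : IsLvlFun₂ (lvlE K) c) : IsLvlFun₂ (lvlE K') (resCochain₂ h c) := by
  obtain ⟨N, hN, hcN⟩ := hc
  refine ⟨N.comap (incl h), comap_incl_mem_lvl h hN, fun g k n hn m hm => ?_⟩
  rw [resCochain₂_apply, resCochain₂_apply]
  simp only [map_mul]
  exact hcN _ _ _ (Subgroup.mem_comap.mp hn) _ (Subgroup.mem_comap.mp hm)

theorem isLvlMulCoboundary₂E_res (h : K ≤ K')
    {c : K.fixingSubgroup × K.fixingSubgroup → Qbˣ} (hc : IsLvlMulCoboundary₂E K c) :
    IsLvlMulCoboundary₂E K' (resCochain₂ h c) := by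
  obtain ⟨x, hx, hxc⟩ := hc
  refine ⟨fun g => x (incl h g), isLvlFun₁_res h hx, fun gh => ?_⟩
  rw [resCochain₂_apply, ← hxc]
  simp only [mulD₁E, map_mul, coe_incl]

theorem isMulCocycle₂E_res (h : K ≤ K')
    {c : K.fixingSubgroup × K.fixingSubgroup → Qbˣ} (hc : IsMulCocycle₂E K c) :
    IsMulCocycle₂E K' (resCochain₂ h c) := by
  intro g k j
  have := hc (incl h g) (incl h k) (incl h j)
  simp only [resCochain₂_apply, map_mul]
  exact this

theorem IsBrCocycle.res (h : K ≤ K')
    {c : K.fixingSubgroup × K.fixingSubgroup → Qbˣ} (hc : IsBrCocycle K c) :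
    IsBrCocycle K' (resCochain₂ h c) :=
  ⟨isLvlFun₂_res h hc.lvl, isMulCocycle₂E_res h hc.cocycle⟩

theorem locFieldAt_mono (h : K ≤ K') (A : ValuationSubring Qb) :
    locFieldAt K A ≤ locFieldAt K' A :=
  sup_le_sup_right h _

theorem IsLocTrivAtE.res (h : K ≤ K') {A : ValuationSubring Qb}
    {c : K.fixingSubgroup × K.fixingSubgroup → Qbˣ} (hc : IsLocTrivAtE K A c) :
    IsLocTrivAtE K' A (resCochain₂ h c) := by
  have h1 := isLvlMulCoboundary₂E_res (locFieldAt_mono h A) hc
  exact h1

theorem IsLocTriv.res (h : K ≤ K')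
    {c : K.fixingSubgroup × K.fixingSubgroup → Qbˣ} (hc : IsLocTriv K c) :
    IsLocTriv K' (resCochain₂ h c) :=
  fun q hq A hA => (hc q hq A hA).res h

theorem IsSplitBy.mono (h : K ≤ K') (h' : K' ≤ K'')
    {c : K.fixingSubgroup × K.fixingSubgroup → Qbˣ} (hc : IsSplitBy h c) :
    IsSplitBy (h.trans h') c :=
  isLvlMulCoboundary₂E_res h' hc

theorem isSplitBy_res_iff (h : K ≤ K') (h' : K' ≤ K'')
    (c : K.fixingSubgroup × K.fixingSubgroup → Qbˣ) :
    IsSplitBy h' (resCochain₂ h c) ↔ IsSplitBy (h.trans h') c := Iff.rfl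

theorem isSplitBy_refl_iff (c : K.fixingSubgroup × K.fixingSubgroup → Qbˣ) :
    IsSplitBy (le_refl K) c ↔ IsLvlMulCoboundary₂E K c := Iff.rfl

end res

/-! ### Formal lemmas on cohomologous cochains -/

section coh

variable {K K' : IntermediateField ℚ Qb}

theorem isLvlMulCoboundary₂E_congr {c c' : K.fixingSubgroup × K.fixingSubgroup → Qbˣ}
    (h : c = c') (hc : IsLvlMulCoboundary₂E K c) : IsLvlMulCoboundary₂E K c' := h ▸ hc

/-- If `c ~ c'` and `c'` is a level coboundary, so is `c`. -/
theorem IsLvlCohomologous.coboundary {c c' : K.fixingSubgroup × K.fixingSubgroup → Qbˣ}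
    (h : IsLvlCohomologous K c c') (hc' : IsLvlMulCoboundary₂E K c') :
    IsLvlMulCoboundary₂E K c := by
  have := IsLvlMulCoboundary₂E.mul h hc'
  refine isLvlMulCoboundary₂E_congr ?_ this
  funext x
  simp

/-- If `c ~ c'` and `c` is a level coboundary, so is `c'`. -/
theorem IsLvlCohomologous.coboundary' {c c' : K.fixingSubgroup × K.fixingSubgroup → Qbˣ}
    (h : IsLvlCohomologous K c c') (hc : IsLvlMulCoboundary₂E K c) :
    IsLvlMulCoboundary₂E K c' := by
  have := IsLvlMulCoboundary₂E.mul (IsLvlMulCoboundary₂E.inv h) hc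
  refine isLvlMulCoboundary₂E_congr ?_ this
  funext x
  simp

theorem IsLvlCohomologous.res (h : K ≤ K') {c c' : K.fixingSubgroup × K.fixingSubgroup → Qbˣ}
    (hc : IsLvlCohomologous K c c') :
    IsLvlCohomologous K' (resCochain₂ h c) (resCochain₂ h c') :=
  isLvlMulCoboundary₂E_res h hc

theorem IsLvlCohomologous.locTriv {c c' : K.fixingSubgroup × K.fixingSubgroup → Qbˣ}
    (h : IsLvlCohomologous K c c') (hc : IsLocTriv K c) : IsLocTriv K c' :=
  fun q hq A hA => (h.res (le_locFieldAt K A)).coboundary' (hc q hq A hA)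

theorem IsLvlCohomologous.locTriv' {c c' : K.fixingSubgroup × K.fixingSubgroup → Qbˣ}
    (h : IsLvlCohomologous K c c') (hc : IsLocTriv K c') : IsLocTriv K c :=
  fun q hq A hA => (h.res (le_locFieldAt K A)).coboundary (hc q hq A hA)

end coh

end Fermat.Agent.H97.Hasse
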