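/-
P-CFT / [HASSE] (sub-lead helper97): the target and the leaf statements (interfaces only).

TARGET `HasseStatement`: a `p`-primary class of `Br(K)` (`K ≤ ℚ̄` a number field, `p` odd),
given by a level 2-cocycle of `G_K` with values in `ℚ̄ˣ`, which is locally trivial at every
finite place of `ℚ̄`, is trivial.

ROUTE: Sylow reduction to a Galois `p`-extension `L / K'` with `ζ_p ∈ K'` (`SylowReduction`),
induction along a tower of degree-`p` layers (`PGroupTower`), and for one cyclic layer `M / K`:
inflation-restriction (`SplitInfl`), the cyclic normal form of helper61, the dictionary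
"locally trivial at `A` ⟹ local norm at `v`" (`GalBaseChange`, `NormApprox`, `SplitCase`) and the
Hasse norm theorem of helper43.
-/
import Fermat.Agent.H97.Hasse.Defs
import Fermat.Agent.H61.CFT.UnramBrauer
import Fermat.Agent.H43.Cft.HasseNorm
import Fermat.Agent.H54.Cft.KummerInterfaces

set_option autoImplicit false

open NumberField IsDedekindDomain

namespace Fermat.Agent.H97.Hasse

open Fermat.Agent.H13.Cft Fermat.Agent.H78.CFT Fermat.Agent.H61.CFT groupCohomology

/-! ### The target -/

/-- **[HASSE]** the Hasse principle for the `p`-primary part of the Brauer group of a number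
field (finite places suffice because `p` is odd). -/
def HasseStatement : Prop :=
  ∀ (p : ℕ) [Fact p.Prime], p ≠ 2 → ∀ (K : IntermediateField ℚ Qb), FiniteDimensional ℚ K →
    ∀ c : K.fixingSubgroup × K.fixingSubgroup → Qbˣ, IsBrCocycle K c →
      (∃ n : ℕ, IsLvlMulCoboundary₂E K (fun x => c x ^ p ^ n)) → IsLocTriv K c →
      IsLvlMulCoboundary₂E K c

/-- Consumer form over `ℚ` (RECIP-Q): a `p`-primary class of `Br(ℚ)` whose restriction to a
finite Galois `M / ℚ` is trivial at the standard place over every prime is trivial on `G_M`. -/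
def HasseQStatement : Prop :=
  ∀ (p : ℕ) [Fact p.Prime], p ≠ 2 →
    ∀ c : (⊥ : IntermediateField ℚ Qb).fixingSubgroup × (⊥ : IntermediateField ℚ Qb).fixingSubgroup
        → Qbˣ,
      IsLvlFun₂ (lvlE ⊥) c → IsMulCocycle₂E ⊥ c → IsLvlMulCoboundary₂E ⊥ (fun x => c x ^ p) →
      ∀ M : IntermediateField ℚ Qb, FiniteDimensional ℚ M → IsGalois ℚ M →
        (∀ (q : ℕ) [Fact q.Prime], IsLvlMulCoboundary₂E (M ⊔ Fermat.Agent.H81.Local.localField q)
          (resCochain₂ bot_le c)) →
        IsLvlMulCoboundary₂E M (resCochain₂ bot_le c)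

/-! ### Intermediate statements (assembled by helper97) -/

/-- **[HS-CYC]** Hasse principle for classes split by a cyclic extension of degree `p`. -/
def CyclicHasseStatement : Prop :=
  ∀ (p : ℕ) [Fact p.Prime], p ≠ 2 → ∀ (K L : IntermediateField ℚ Qb) (h : K ≤ L),
    FiniteDimensional ℚ K → (∃ ζ ∈ K, IsPrimitiveRoot ζ p) → IsGalDeg h p →
    ∀ c : K.fixingSubgroup × K.fixingSubgroup → Qbˣ, IsBrCocycle K c → IsSplitBy h c →
      IsLocTriv K c → IsLvlMulCoboundary₂E K c

/-- **[HS-PGRP]** Hasse principle for classes split by a Galois extension of degree `p ^ n`. -/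
def PGroupHasseStatement : Prop :=
  ∀ (p : ℕ) [Fact p.Prime], p ≠ 2 → ∀ (n : ℕ) (K L : IntermediateField ℚ Qb) (h : K ≤ L),
    FiniteDimensional ℚ K → (∃ ζ ∈ K, IsPrimitiveRoot ζ p) → IsGalDeg h (p ^ n) →
    ∀ c : K.fixingSubgroup × K.fixingSubgroup → Qbˣ, IsBrCocycle K c → IsSplitBy h c →
      IsLocTriv K c → IsLvlMulCoboundary₂E K c

/-- **[HS-LN]** (BRIDGE-LN, direction "⟹"): if the inflation of the standard cocycle of
`a ∈ Kˣ` for the cyclic extension `M / K` of prime degree is locally trivial at the place `A`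
over the prime `v` of `K`, then `a` is a local norm at `v` (approximation form of helper43). -/
def LocNormOfLocTrivStatement : Prop :=
  ∀ (p : ℕ) [Fact p.Prime] (K : IntermediateField ℚ Qb) [NumberField K]
    (M : IntermediateField K Qb) [FiniteDimensional K M] [IsGalois K M] [NumberField M],
    Module.finrank K M = p → ∀ σ : M ≃ₐ[K] M, IsGen σ → ∀ (a : Kˣ) (q : ℕ), q.Prime →
    ∀ A : ValuationSubring Qb, A.LiesOverPrime q → ∀ v : HeightOneSpectrum (𝓞 K),
      Fermat.Agent.H54.Cft.LiesOverHeightOne K A v →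
      IsLocTrivAtE K A (inflE K M (stdCocycle σ (unitsIncl K M a))) →
      a ∈ Fermat.Agent.H43.Cft.locNorm K M v

/-! ### Leaves -/

/-- **[HS-A] SplitInfl** (inflation-restriction in degree 2, level form): a Brauer cocycle of
`G_K` split by the finite Galois extension `M / K` is cohomologous, through level cochains, to
the inflation of a 2-cocycle of `Gal(M/K)` with values in `Mˣ`. -/
def SplitInflStatement : Prop :=
  ∀ (K : IntermediateField ℚ Qb) (M : IntermediateField K Qb) [FiniteDimensional K M]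
    [IsGalois K M] (c : K.fixingSubgroup × K.fixingSubgroup → Qbˣ), IsBrCocycle K c →
    IsSplitBy (le_restrictScalars M) c →
    ∃ c₁ : (M ≃ₐ[K] M) × (M ≃ₐ[K] M) → Mˣ, IsMulCocycle₂ c₁ ∧
      IsLvlCohomologous K c (inflE K M c₁)

/-- **[HS-B2] GalBaseChange** (pure Galois theory + cochains, no valuations): `M / K` Galois of
prime degree `p` with generator `σ`, `E ≥ K` ARBITRARY with `M ⊄ E`.  The standard cocycle of
`a ∈ Kˣ`, inflated to `G_K` and restricted to `G_E`, is a level coboundary iff `a` is a norm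
from `M E` to `E`, the norm being written with a lift `s ∈ G_E` of `σ`. -/
def GalBaseChangeStatement : Prop :=
  ∀ (p : ℕ) [Fact p.Prime] (K : IntermediateField ℚ Qb) (M : IntermediateField K Qb)
    [FiniteDimensional K M] [IsGalois K M], Module.finrank K M = p →
    ∀ σ : M ≃ₐ[K] M, IsGen σ → ∀ (a : Kˣ) (E : IntermediateField ℚ Qb) (hKE : K ≤ E),
    ¬ (M.restrictScalars ℚ ≤ E) →
    (IsLvlMulCoboundary₂E E (resCochain₂ hKE (inflE K M (stdCocycle σ (unitsIncl K M a)))) ↔
      ∃ (s : E.fixingSubgroup) (y : Qbˣ), resEF K M (incl hKE s) = σ ∧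
        (y : Qb) ∈ M.restrictScalars ℚ ⊔ E ∧
        ((a : K) : Qb) = ∏ k ∈ Finset.range p, ((s : Qb ≃ₐ[ℚ] Qb) ^ k) (y : Qb))

/-- **[HS-B2'] GalBaseChangeSplit**: if `M ≤ E` the restricted cocycle is identically `1`. -/
def GalBaseChangeSplitStatement : Prop :=
  ∀ (K : IntermediateField ℚ Qb) (M : IntermediateField K Qb)
    [FiniteDimensional K M] [IsGalois K M] (σ : M ≃ₐ[K] M), IsGen σ →
    ∀ (a : Mˣ) (E : IntermediateField ℚ Qb) (hKE : K ≤ E), M.restrictScalars ℚ ≤ E →
    ∀ x, resCochain₂ hKE (inflE K M (stdCocycle σ a)) x = 1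

/-- **[HS-B0a] DecClosed**: the decomposition group of a place of `ℚ̄` over a prime is the
Galois group of its decomposition field (i.e. it is closed). -/
def DecClosedStatement : Prop :=
  ∀ (q : ℕ), q.Prime → ∀ A : ValuationSubring Qb, A.LiesOverPrime q →
    (decField A).fixingSubgroup = A.decompositionSubgroup ℚ

/-- **[HS-B0b] DecDense**: `ℚ` is dense in the decomposition field of a place `A` over `q`. -/
def DecDenseStatement : Prop :=
  ∀ (q : ℕ), q.Prime → ∀ A : ValuationSubring Qb, A.LiesOverPrime q →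
    ∀ y ∈ decField A, ∀ n : ℕ, ∃ r : ℚ, (y - algebraMap ℚ Qb r) / (q : Qb) ^ n ∈ A

/-- **[HS-B0c] DecHensel**: `p`-th roots of elements close to `1` in the local field
`E = K ⊔ decField A` (`K` a number field): Hensel's lemma. -/
def DecHenselStatement : Prop :=
  ∀ (p : ℕ) [Fact p.Prime] (q : ℕ), q.Prime → ∀ A : ValuationSubring Qb, A.LiesOverPrime q →
    ∀ (K : IntermediateField ℚ Qb), FiniteDimensional ℚ K →
    ∃ n : ℕ, ∀ u ∈ locFieldAt K A, (u - 1) / (q : Qb) ^ n ∈ A →
      ∃ t ∈ locFieldAt K A, t ^ p = u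

/-- **[HS-B3] NormApprox** (approximation): in the situation of `GalBaseChange` with
`E = K ⊔ decField A` the local field of the number field `K` at the place `A` over `v`:
a norm from `M E` is a limit of norms from `M`. -/
def NormApproxStatement : Prop :=
  ∀ (p : ℕ) [Fact p.Prime] (K : IntermediateField ℚ Qb) [NumberField K]
    (M : IntermediateField K Qb) [FiniteDimensional K M] [IsGalois K M] [NumberField M],
    Module.finrank K M = p → ∀ σ : M ≃ₐ[K] M, IsGen σ → ∀ (a : Kˣ) (q : ℕ), q.Prime →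
    ∀ A : ValuationSubring Qb, A.LiesOverPrime q → ∀ v : HeightOneSpectrum (𝓞 K),
      Fermat.Agent.H54.Cft.LiesOverHeightOne K A v →
      ∀ (s : (locFieldAt K A).fixingSubgroup) (y : Qbˣ),
        resEF K M (incl (le_locFieldAt K A) s) = σ →
        (y : Qb) ∈ M.restrictScalars ℚ ⊔ locFieldAt K A →
        ((a : K) : Qb) = ∏ k ∈ Finset.range p, ((s : Qb ≃ₐ[ℚ] Qb) ^ k) (y : Qb) →
        a ∈ Fermat.Agent.H43.Cft.locNorm K M v

/-- **[HS-B4] SplitCase**: if `M` lies in the local field of `K` at `A`, the prime `v` of `K`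
under `A` splits in `M` (so every element is a local norm, helper88 `localNormIndex`). -/
def SplitCaseStatement : Prop :=
  ∀ (p : ℕ) [Fact p.Prime] (K : IntermediateField ℚ Qb) [NumberField K]
    (M : IntermediateField K Qb) [FiniteDimensional K M] [IsGalois K M] [NumberField M],
    Module.finrank K M = p → ∀ (q : ℕ), q.Prime →
    ∀ A : ValuationSubring Qb, A.LiesOverPrime q → ∀ v : HeightOneSpectrum (𝓞 K),
      Fermat.Agent.H54.Cft.LiesOverHeightOne K A v →
      M.restrictScalars ℚ ≤ locFieldAt K A → ¬ Fermat.Agent.H43.Cft.Nonsplit K M v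

/-- **[HS-C] LocTrivOfLocNorm** (BRIDGE-LN, direction "⟸", consumer: REAL / GA'): a local norm
at `v` gives a standard cocycle which is locally trivial at every place over `v`. -/
def LocTrivOfLocNormStatement : Prop :=
  ∀ (p : ℕ) [Fact p.Prime] (K : IntermediateField ℚ Qb) [NumberField K]
    (M : IntermediateField K Qb) [FiniteDimensional K M] [IsGalois K M] [NumberField M],
    Module.finrank K M = p → ∀ σ : M ≃ₐ[K] M, IsGen σ → ∀ (a : Kˣ) (q : ℕ), q.Prime →
    ∀ A : ValuationSubring Qb, A.LiesOverPrime q → ∀ v : HeightOneSpectrum (𝓞 K),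
      Fermat.Agent.H54.Cft.LiesOverHeightOne K A v →
      a ∈ Fermat.Agent.H43.Cft.locNorm K M v →
      IsLocTrivAtE K A (inflE K M (stdCocycle σ (unitsIncl K M a)))

/-- **[HS-D] UnramSettingExists**: a Galois extension of number fields of odd prime degree is
unramified outside a finite set of primes containing the primes over `p`. -/
def UnramSettingExistsStatement : Prop :=
  ∀ (K : Type) [Field K] [NumberField K] (L : Type) [Field L] [NumberField L] [Algebra K L]
    [IsGalois K L] (p : ℕ), p.Prime → p ≠ 2 → Module.finrank K L = p →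
    ∃ T₀ : Finset (HeightOneSpectrum (𝓞 K)), Fermat.Agent.H43.Cft.UnramSetting K L p T₀

/-- **[HS-E] PGroupTower** (Galois theory of `p`-groups): a Galois extension of degree
`p ^ (n + 1)` has a Galois subextension `M / K` of degree `p` (and `L / M` is Galois of degree
`p ^ n`). -/
def PGroupTowerStatement : Prop :=
  ∀ (p : ℕ) [Fact p.Prime] (n : ℕ) (K L : IntermediateField ℚ Qb) (h : K ≤ L),
    IsGalDeg h (p ^ (n + 1)) →
    ∃ (M : IntermediateField ℚ Qb) (h₁ : K ≤ M) (h₂ : M ≤ L), IsGalDeg h₁ p ∧ IsGalDeg h₂ (p ^ n)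

/-- **[HS-F] SylowReduction**: a `p`-primary Brauer class of the number field `K` is split by a
Galois extension `L / K'` of `p`-power degree, where `K' / K` is finite, `ζ_p ∈ K'`, and the
restriction from `K` to `K'` is injective on this class (degree of `K' / K` prime to `p`,
transfer). -/
def SylowReductionStatement : Prop :=
  ∀ (p : ℕ) [Fact p.Prime] (K : IntermediateField ℚ Qb), FiniteDimensional ℚ K →
    ∀ c : K.fixingSubgroup × K.fixingSubgroup → Qbˣ, IsBrCocycle K c →
    (∃ n : ℕ, IsLvlMulCoboundary₂E K (fun x => c x ^ p ^ n)) →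
    ∃ (K' L : IntermediateField ℚ Qb) (h : K ≤ K') (h' : K' ≤ L) (n : ℕ),
      FiniteDimensional ℚ K' ∧ (∃ ζ ∈ K', IsPrimitiveRoot ζ p) ∧ IsGalDeg h' (p ^ n) ∧
      IsSplitBy (h.trans h') c ∧
      (IsLvlMulCoboundary₂E K' (resCochain₂ h c) → IsLvlMulCoboundary₂E K c)

/-- **[HS-G] ConjCoboundary** (conjugation acts trivially on cohomology, cochain form): for a
Brauer cocycle `c` of `G_K`, `g ∈ G_K` and `E ≥ K`: if `c` restricted to `G_E` is a level
coboundary, so is `c` restricted to `G_{g E}`. -/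
def ConjCoboundaryStatement : Prop :=
  ∀ (K : IntermediateField ℚ Qb) (c : K.fixingSubgroup × K.fixingSubgroup → Qbˣ),
    IsBrCocycle K c → ∀ (g : K.fixingSubgroup) (E E' : IntermediateField ℚ Qb) (hE : K ≤ E)
      (hE' : K ≤ E'), E' = E.map ((g : Qb ≃ₐ[ℚ] Qb) : Qb →ₐ[ℚ] Qb) →
      IsLvlMulCoboundary₂E E (resCochain₂ hE c) → IsLvlMulCoboundary₂E E' (resCochain₂ hE' c)

/-- **[HS-H] PlaceConj**: the places of `ℚ̄` over `q` are the conjugates of the standard one,
and the decomposition field of a conjugate is the conjugate of the decomposition field. -/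
def PlaceConjStatement : Prop :=
  ∀ (q : ℕ) [Fact q.Prime] (A : ValuationSubring Qb), A.LiesOverPrime q →
    ∃ g : Qb ≃ₐ[ℚ] Qb,
      decField A = (Fermat.Agent.H81.Local.localField q).map ((g : Qb ≃ₐ[ℚ] Qb) : Qb →ₐ[ℚ] Qb)

end Fermat.Agent.H97.Hasse
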