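/-
P-CFT / [HASSE] (sub-lead helper97): assembly of the Hasse principle from the leaves.
-/
import Fermat.Agent.H97.Hasse.Interfaces
import Fermat.Agent.H88.Cft.LocNormIndex
import Fermat.Agent.H43.Cft.HasseNormUncond
import Fermat.Agent.H54.Cft.KummerCharFinite
import Fermat.Agent.H75.Inf2InflCob

set_option autoImplicit false

open NumberField IsDedekindDomain

namespace Fermat.Agent.H97.Hasse

open Fermat.Agent.H13.Cft Fermat.Agent.H78.CFT Fermat.Agent.H61.CFT groupCohomology

/-! ### The dictionary "locally trivial ⟹ local norm" -/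

/-- **[HS-LN]** from base change, approximation and the split case. -/
theorem locNormOfLocTriv_of (hB2 : GalBaseChangeStatement) (hB3 : NormApproxStatement)
    (hB4 : SplitCaseStatement) : LocNormOfLocTrivStatement := by
  intro p _ K _ M _ _ _ hdeg σ hσ a q hq A hA v hv hloc
  by_cases hM : M.restrictScalars ℚ ≤ locFieldAt K A
  · have hns := hB4 p K M hdeg q hq A hA v hv hM
    have htop := (Fermat.Agent.H88.Cft.localNormIndex K M p (Fact.out) hdeg v).2 hns
    rw [htop]
    exact Subgroup.mem_top a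
  · obtain ⟨s, y, hs, hy, hprod⟩ :=
      (hB2 p K M hdeg σ hσ a (locFieldAt K A) (le_locFieldAt K A) hM).mp hloc
    exact hB3 p K M hdeg σ hσ a q hq A hA v hv s y hs hy hprod

/-! ### Auxiliary formal lemmas -/

theorem IsLvlCohomologous.trans {K : IntermediateField ℚ Qb}
    {c c' c'' : K.fixingSubgroup × K.fixingSubgroup → Qbˣ}
    (h : IsLvlCohomologous K c c') (h' : IsLvlCohomologous K c' c'') :
    IsLvlCohomologous K c c'' := by
  have := IsLvlMulCoboundary₂E.mul h h'
  refine isLvlMulCoboundary₂E_congr ?_ this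
  funext x
  simp

theorem inflE_div (K : IntermediateField ℚ Qb) (M : IntermediateField K Qb) [Normal K M]
    (c₁ c₂ : (M ≃ₐ[K] M) × (M ≃ₐ[K] M) → Mˣ) :
    inflE K M (fun x => c₁ x / c₂ x) = fun x => inflE K M c₁ x / inflE K M c₂ x := by
  funext x
  simp only [inflE, map_div]

/-- A finite-level cohomology between cocycles inflates to a level cohomology. -/
theorem isLvlCohomologous_inflE (K : IntermediateField ℚ Qb) (M : IntermediateField K Qb)
    [FiniteDimensional K M] [IsGalois K M] (c₁ c₂ : (M ≃ₐ[K] M) × (M ≃ₐ[K] M) → Mˣ)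
    (h : IsMulCoboundary₂ (fun x => c₁ x / c₂ x)) :
    IsLvlCohomologous K (inflE K M c₁) (inflE K M c₂) := by
  have := Fermat.Agent.H75.Inf2.inflCoboundary K M _ h
  rw [inflE_div] at this
  exact this

/-- A number field structure on an intermediate field of finite degree. -/
theorem numberField_of_finiteDimensional (K : IntermediateField ℚ Qb)
    (hK : FiniteDimensional ℚ K) : NumberField K :=
  { to_charZero := inferInstance, to_finiteDimensional := hK }

theorem finiteDimensional_of_isGalDeg {K L : IntermediateField ℚ Qb} (h : K ≤ L) {n : ℕ}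
    (hgd : IsGalDeg h n) (hK : FiniteDimensional ℚ K) : FiniteDimensional ℚ L := by
  haveI := hK
  haveI := hgd.fin
  have h1 : FiniteDimensional ℚ (IntermediateField.extendScalars h) :=
    FiniteDimensional.trans ℚ K (IntermediateField.extendScalars h)
  exact h1

/-! ### The cyclic layer -/

set_option maxHeartbeats 1000000 in
set_option synthInstance.maxHeartbeats 400000 in
/-- **[HS-CYC]** the Hasse principle for classes split by a cyclic extension of degree `p`. -/
theorem cyclicHasse_of (hA : SplitInflStatement) (hLN : LocNormOfLocTrivStatement)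
    (hD : UnramSettingExistsStatement) : CyclicHasseStatement := by
  intro p _ hp2 K L h hK hζ hgd c hc hsplit hloc
  have hp : p.Prime := Fact.out
  haveI : NumberField K := numberField_of_finiteDimensional K hK
  have hL : FiniteDimensional ℚ L := finiteDimensional_of_isGalDeg h hgd hK
  set M : IntermediateField K Qb := IntermediateField.extendScalars h with hMdef
  haveI : FiniteDimensional K M := hgd.fin
  haveI : IsGalois K M := hgd.gal
  haveI : NumberField M :=
    { to_charZero := inferInstance, to_finiteDimensional := hL }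
  have hdeg : Module.finrank K M = p := hgd.deg
  -- inflation-restriction
  obtain ⟨c₁, hc₁, hcoh⟩ := hA K M c hc hsplit
  -- a generator of the Galois group
  have hcard : Nat.card (M ≃ₐ[K] M) = p := (IsGalois.card_aut_eq_finrank K M).trans hdeg
  haveI : IsCyclic (M ≃ₐ[K] M) := isCyclic_of_prime_card hcard
  obtain ⟨σ, hσ'⟩ := IsCyclic.exists_generator (α := M ≃ₐ[K] M)
  have hσ : IsGen σ := isGen_of_forall_mem_zpowers hσ'
  -- cyclic normal form
  obtain ⟨a', ha', hcob⟩ := exists_stdCocycle_cohomologous hσ hc₁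
  obtain ⟨a, rfl⟩ := exists_unitsIncl_of_fixed hσ ha'
  have hcoh2 : IsLvlCohomologous K c (inflE K M (stdCocycle σ (unitsIncl K M a))) :=
    hcoh.trans (isLvlCohomologous_inflE K M _ _ hcob)
  have hloc2 : IsLocTriv K (inflE K M (stdCocycle σ (unitsIncl K M a))) := hcoh2.locTriv hloc
  -- `a` is a local norm everywhere
  have hall : ∀ v : HeightOneSpectrum (𝓞 K), a ∈ Fermat.Agent.H43.Cft.locNorm K M v := by
    intro v
    obtain ⟨ℓ, hℓ, hℓv⟩ := Fermat.Agent.H54.Cft.exists_prime_mem_heightOne K v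
    obtain ⟨A, hA1, hA2⟩ := Fermat.Agent.H54.Cft.exists_place_over_heightOne K v hℓv
    exact hLN p K M hdeg σ hσ a ℓ hℓ A hA1 v hA2 (hloc2 ℓ hℓ A hA1)
  -- the Hasse norm theorem
  obtain ⟨T₀, hT₀⟩ := hD K M p hp hp2 hdeg
  obtain ⟨ζ, hζK, hζp⟩ := hζ
  have hζ' : ∃ ζ' : K, IsPrimitiveRoot ζ' p :=
    ⟨⟨ζ, hζK⟩, IsPrimitiveRoot.coe_submonoidClass_iff.mp hζp⟩
  have hnorm : a ∈ Fermat.Agent.H43.Cft.normSubgroup K M :=
    Fermat.Agent.H43.Cft.hasseNorm K M p T₀ hT₀ hζ' a hall
  have hstd : IsMulCoboundary₂ (stdCocycle σ (unitsIncl K M a)) :=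
    (isMulCoboundary₂_stdCocycle_unitsIncl_iff hσ a).mpr hnorm
  exact hcoh2.coboundary (Fermat.Agent.H75.Inf2.inflCoboundary K M _ hstd)

/-! ### Induction along a tower -/

/-- Restriction along `K ≤ K` is the identity. -/
theorem resCochain₂_refl {K : IntermediateField ℚ Qb} {X : Type}
    (c : K.fixingSubgroup × K.fixingSubgroup → X) : resCochain₂ (le_refl K) c = c := rfl

/-- If `L ≤ K ≤ L`, a cocycle split by `L` is a coboundary. -/
theorem isLvlMulCoboundary₂E_of_isSplitBy_of_le {K L : IntermediateField ℚ Qb} (h : K ≤ L)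
    (h' : L ≤ K) {c : K.fixingSubgroup × K.fixingSubgroup → Qbˣ} (hc : IsSplitBy h c) :
    IsLvlMulCoboundary₂E K c :=
  isLvlMulCoboundary₂E_res h' hc

theorem le_of_isGalDeg_one {K L : IntermediateField ℚ Qb} (h : K ≤ L) (hgd : IsGalDeg h 1) :
    L ≤ K := by
  haveI := hgd.fin
  have hbot : IntermediateField.extendScalars h = ⊥ :=
    IntermediateField.finrank_eq_one_iff.mp hgd.deg
  intro x hx
  have hx' : x ∈ IntermediateField.extendScalars h := hx
  rw [hbot, IntermediateField.mem_bot] at hx'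
  obtain ⟨y, rfl⟩ := hx'
  exact y.2

/-- **[HS-PGRP]** induction on the degree. -/
theorem pGroupHasse_of (hC : CyclicHasseStatement) (hE : PGroupTowerStatement) :
    PGroupHasseStatement := by
  intro p _ hp2 n
  induction n with
  | zero =>
    intro K L h hK hζ hgd c hc hsplit hloc
    rw [pow_zero] at hgd
    exact isLvlMulCoboundary₂E_of_isSplitBy_of_le h (le_of_isGalDeg_one h hgd) hsplit
  | succ n ih =>
    intro K L h hK hζ hgd c hc hsplit hloc
    obtain ⟨M, h₁, h₂, hg₁, hg₂⟩ := hE p n K L h hgd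
    have hM : FiniteDimensional ℚ M := finiteDimensional_of_isGalDeg h₁ hg₁ hK
    obtain ⟨ζ, hζK, hζp⟩ := hζ
    have hsplitM : IsSplitBy h₁ c :=
      ih M L h₂ hM ⟨ζ, h₁ hζK, hζp⟩ hg₂ (resCochain₂ h₁ c) (hc.res h₁) hsplit (hloc.res h₁)
    exact hC p hp2 K M h₁ hK ⟨ζ, hζK, hζp⟩ hg₁ c hc hsplitM hloc

/-! ### The Hasse principle -/

/-- **[HASSE]** from the `p`-group case and the Sylow reduction. -/
theorem hasse_of (hP : PGroupHasseStatement) (hF : SylowReductionStatement) :
    HasseStatement := by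
  intro p _ hp2 K hK c hc hpow hloc
  obtain ⟨K', L, h, h', n, hK', hζ, hgd, hsplit, hinj⟩ := hF p K hK c hc hpow
  exact hinj (hP p hp2 n K' L h' hK' hζ hgd (resCochain₂ h c) (hc.res h) hsplit (hloc.res h))

/-- **[HASSE]** from the leaves. -/
theorem hasse_of_leaves (hA : SplitInflStatement) (hB2 : GalBaseChangeStatement)
    (hB3 : NormApproxStatement) (hB4 : SplitCaseStatement) (hD : UnramSettingExistsStatement)
    (hE : PGroupTowerStatement) (hF : SylowReductionStatement) : HasseStatement :=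
  hasse_of (pGroupHasse_of (cyclicHasse_of hA (locNormOfLocTriv_of hB2 hB3 hB4) hD) hE) hF

/-! ### The consumer form over `ℚ` -/

theorem isLvlMulCoboundary₂E_pow_res {K K' : IntermediateField ℚ Qb} (h : K ≤ K')
    {c : K.fixingSubgroup × K.fixingSubgroup → Qbˣ} {m : ℕ}
    (hc : IsLvlMulCoboundary₂E K (fun x => c x ^ m)) :
    IsLvlMulCoboundary₂E K' (fun x => resCochain₂ h c x ^ m) :=
  isLvlMulCoboundary₂E_res h hc

/-- **[HASSE-Q]** the consumer form of RECIP-Q. -/
theorem hasseQ_of (hH : HasseStatement) (hG : ConjCoboundaryStatement)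
    (hPC : PlaceConjStatement) : HasseQStatement := by
  intro p _ hp2 c hlvl hcoc hpow M hM hMgal hq
  have hc : IsBrCocycle ⊥ c := ⟨hlvl, hcoc⟩
  refine hH p hp2 M hM (resCochain₂ bot_le c) (hc.res bot_le)
    ⟨1, by simpa using isLvlMulCoboundary₂E_pow_res bot_le hpow⟩ ?_
  intro q hq' A hA
  haveI : Fact q.Prime := ⟨hq'⟩
  obtain ⟨g, hg⟩ := hPC q A hA
  have hgmem : g ∈ (⊥ : IntermediateField ℚ Qb).fixingSubgroup := by
    rw [IntermediateField.fixingSubgroup_bot]
    exact Subgroup.mem_top g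
  haveI : IsGalois ℚ Qb := Fermat.Agent.H75.Inf2.isGalois_rat_Qb
  haveI : Normal ℚ Qb := IsGalois.to_normal
  have hN : Normal ℚ M := by
    have h0 := hMgal.to_normal
    convert h0
  have hMg : M.map ((g : Qb ≃ₐ[ℚ] Qb) : Qb →ₐ[ℚ] Qb) = M :=
    IntermediateField.normal_iff_forall_map_eq'.mp hN g
  have heq : M ⊔ decField A =
      (M ⊔ Fermat.Agent.H81.Local.localField q).map ((g : Qb ≃ₐ[ℚ] Qb) : Qb →ₐ[ℚ] Qb) := by
    rw [IntermediateField.map_sup, hMg, hg]
  exact hG ⊥ c hc ⟨g, hgmem⟩ (M ⊔ Fermat.Agent.H81.Local.localField q) (M ⊔ decField A)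
    bot_le bot_le heq (hq q)

end Fermat.Agent.H97.Hasse
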