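/-
P-CFT / [HASSE] (helper97): the cyclic normal form of a Brauer class split by a cyclic
extension, as a reusable statement (consumers: RECIP-Q, [GA']).
-/
import Fermat.Agent.H97.Hasse.Assembly
import Fermat.Agent.H57.CFT.H90Lvl

set_option autoImplicit false

namespace Fermat.Agent.H97.Hasse

open Fermat.Agent.H13.Cft Fermat.Agent.H78.CFT Fermat.Agent.H61.CFT groupCohomology

/-- **[HS-NF]** a Brauer cocycle of `G_K` split by the finite cyclic extension `M / K` with
generator `σ` is cohomologous, through level cochains, to the inflation of the standard cocycle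
of some `a ∈ Kˣ`. -/
def CyclicNormalFormStatement : Prop :=
  ∀ (K : IntermediateField ℚ Qb) (M : IntermediateField K Qb) [FiniteDimensional K M]
    [IsGalois K M] (σ : M ≃ₐ[K] M), IsGen σ →
    ∀ c : K.fixingSubgroup × K.fixingSubgroup → Qbˣ, IsBrCocycle K c →
      IsSplitBy (le_restrictScalars M) c →
      ∃ a : Kˣ, IsLvlCohomologous K c (inflE K M (stdCocycle σ (unitsIncl K M a)))

set_option maxHeartbeats 1000000 in
set_option synthInstance.maxHeartbeats 400000 in
theorem cyclicNormalForm_of (hA : SplitInflStatement) : CyclicNormalFormStatement := by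
  intro K M _ _ σ hσ c hc hsplit
  obtain ⟨c₁, hc₁, hcoh⟩ := hA K M c hc hsplit
  obtain ⟨a', ha', hcob⟩ := exists_stdCocycle_cohomologous hσ hc₁
  obtain ⟨a, rfl⟩ := exists_unitsIncl_of_fixed hσ ha'
  exact ⟨a, hcoh.trans (isLvlCohomologous_inflE K M _ _ hcob)⟩

/-- The inflation of the standard cocycle of a norm is a level coboundary. -/
theorem isLvlMulCoboundary₂E_inflE_std_of_norm (K : IntermediateField ℚ Qb)
    (M : IntermediateField K Qb) [FiniteDimensional K M] [IsGalois K M] (σ : M ≃ₐ[K] M)
    (hσ : IsGen σ) (a : Kˣ) (ha : a ∈ normSubgp K M) :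
    IsLvlMulCoboundary₂E K (inflE K M (stdCocycle σ (unitsIncl K M a))) :=
  Fermat.Agent.H75.Inf2.inflCoboundary K M _
    ((isMulCoboundary₂_stdCocycle_unitsIncl_iff hσ a).mpr ha)

/-- Conversely (given Hilbert 90 for level cocycles, i.e. injectivity of inflation): if the
inflation of the standard cocycle of `a` is a level coboundary, `a` is a norm. -/
theorem mem_normSubgp_of_isLvlMulCoboundary₂E_inflE_std (K : IntermediateField ℚ Qb)
    (M : IntermediateField K Qb) [FiniteDimensional K M] [IsGalois K M] (σ : M ≃ₐ[K] M)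
    (hσ : IsGen σ) (a : Kˣ)
    (h : IsLvlMulCoboundary₂E K (inflE K M (stdCocycle σ (unitsIncl K M a)))) :
    a ∈ normSubgp K M :=
  (isMulCoboundary₂_stdCocycle_unitsIncl_iff hσ a).mp
    (Fermat.Agent.H75.Inf2.inf2Lvl Fermat.Agent.H57.CFT.h90Lvl K M _
      (isMulCocycle₂_stdCocycle_unitsIncl hσ a) h)

end Fermat.Agent.H97.Hasse
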