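/-
P-CFT / [HASSE] (sub-lead helper97): the bridge [LN] between local triviality of the standard
cyclic cocycle and local norms, BOTH directions, unconditional.

Leaves: helper2 (`galBaseChange`, `galBaseChangeSplit`), helper87 (`normApprox`),
helper44 (`splitCase`), helper89 (`decClosed`, `decDense`, `decHensel`),
helper27 (`locTrivOfLocNorm`), helper88 (`localNormIndex`).
-/
import Fermat.Agent.H97.Hasse.NormalForm
import Fermat.Agent.H27.Hasse.LocTrivOfLocNorm
import Fermat.Agent.H44.Hasse.SplitCase
import Fermat.Agent.H89.Hasse.DecField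
import Fermat.Agent.H2.Hasse.GalBaseChange
import Fermat.Agent.H87.Hasse.NormApprox

set_option autoImplicit false

namespace Fermat.Agent.H97.Hasse

/-- **[LN ⟹]** locally trivial at `A` over `v` implies local norm at `v`. -/
theorem locNormOfLocTriv : LocNormOfLocTrivStatement :=
  locNormOfLocTriv_of Fermat.Agent.H2.galBaseChange
    (Fermat.Agent.H87.Hasse.normApprox Fermat.Agent.H89.Hasse.decClosed
      Fermat.Agent.H89.Hasse.decDense)
    (Fermat.Agent.H44.Hasse.splitCase Fermat.Agent.H89.Hasse.decClosed)

/-- **[LN ⟸]** a local norm at `v` gives a cocycle which is locally trivial at every place over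
`v`. -/
theorem locTrivOfLocNorm : LocTrivOfLocNormStatement :=
  Fermat.Agent.H27.Hasse.locTrivOfLocNorm Fermat.Agent.H2.galBaseChange
    Fermat.Agent.H2.galBaseChangeSplit Fermat.Agent.H89.Hasse.decClosed
    Fermat.Agent.H89.Hasse.decHensel

end Fermat.Agent.H97.Hasse
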