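/-
P-CFT / [HASSE] (sub-lead helper97): THE HASSE PRINCIPLE, UNCONDITIONAL.

* `hasse : HasseStatement` - a `p`-primary class (`p` odd) of the Brauer group of a number field
  `K ≤ ℚ̄` (level 2-cocycle of `G_K` with values in `ℚ̄ˣ`) which is locally trivial at every
  finite place is trivial;
* `hasseQ : HasseQStatement` and `hasseQ25 : Fermat.Agent.H25.Recip.HasseQStatement` - the
  consumer form of RECIP-Q;
* `hasseMu : Fermat.Agent.H54.Cft.HasseMuStatement` - the `μ_p`-form consumed by [GO2'];
* `cyclicNormalForm`, `cyclicHasse`, `pGroupHasse`; the bridge [LN] is in `LocalNorm.lean`.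

Leaves: helper2 (`splitInfl`, `galBaseChange`), helper85 (`splitInfl`), helper87 (`normApprox`),
helper44 (`splitCase`), helper89 (`decClosed`, `decDense`, `decHensel`, `placeConj`),
helper27 (`locTrivOfLocNorm`), helper84 (`unramSettingExists`), helper79 (`pGroupTower`),
helper96 (`sylowReduction`), helper58 (`conjCoboundary`, transfer), helper24 (`hasseMu_of`);
engines: helper43/helper25/helper88 (Hasse norm theorem), helper75/helper57/helper61
(inflation, Hilbert 90, cyclic normal form).
-/
import Fermat.Agent.H97.Hasse.LocalNorm
import Fermat.Agent.H2.Hasse.SplitInfl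
import Fermat.Agent.H84.Hasse.UnramSettingExists
import Fermat.Agent.H79.Hasse.PGroupTower
import Fermat.Agent.H96.Hasse.SylowReduction
import Fermat.Agent.H58.Hasse.ConjCoboundary
import Fermat.Agent.H24.Hasse.HasseMu
import Fermat.Agent.H25.Recip.Interfaces

set_option autoImplicit false

namespace Fermat.Agent.H97.Hasse

/-- Cyclic normal form of a Brauer class split by a cyclic extension. -/
theorem cyclicNormalForm : CyclicNormalFormStatement :=
  cyclicNormalForm_of Fermat.Agent.H2.splitInfl

/-- The Hasse principle for classes split by a cyclic extension of degree `p`. -/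
theorem cyclicHasse : CyclicHasseStatement :=
  cyclicHasse_of Fermat.Agent.H2.splitInfl locNormOfLocTriv
    Fermat.Agent.H84.Hasse.unramSettingExists

/-- The Hasse principle for classes split by a Galois `p`-extension. -/
theorem pGroupHasse : PGroupHasseStatement :=
  pGroupHasse_of cyclicHasse Fermat.Agent.H79.Hasse.pGroupTower

/-- **[HASSE]** the Hasse principle for the `p`-primary part of the Brauer group of a number
field, `p` odd. -/
theorem hasse : HasseStatement :=
  hasse_of pGroupHasse Fermat.Agent.H96.Hasse.sylowReduction

/-- **[HASSE-Q]** the consumer form over `ℚ`. -/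
theorem hasseQ : HasseQStatement :=
  hasseQ_of hasse Fermat.Agent.H58.Hasse.conjCoboundary Fermat.Agent.H89.Hasse.placeConj

/-- **[HASSE-Q]** in the interface of RECIP-Q (helper25). -/
theorem hasseQ25 : Fermat.Agent.H25.Recip.HasseQStatement := hasseQ

/-- **[HASSE-μ]** the `μ_p`-form in the interface of [GO2'] (helper54). -/
theorem hasseMu : Fermat.Agent.H54.Cft.HasseMuStatement :=
  Fermat.Agent.H24.Hasse.hasseMu_of hasse Fermat.Agent.H89.Hasse.decClosed

end Fermat.Agent.H97.Hasse
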