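/-
P-CFT / [HASSE] (helper97): the level transfer lemma for the Sylow reduction (row HS-F).

`K ≤ K' ≤ F`, `F / K` finite Galois, `c₀` a 2-cocycle of `Gal(F/K)` with values in `Fˣ` such that
`c₀ ^ n` is a coboundary; `S ≤ Gal(F/K)` a subgroup fixing `K'` pointwise, of index prime to `n`.
If the inflation of `c₀` to `G_K`, restricted to `G_{K'}`, is a level coboundary, then `c₀` is a
coboundary.
-/
import Fermat.Agent.H97.Hasse.Defs
import Fermat.Agent.H58.Hasse.Transfer
import Fermat.Agent.H75.Inf2Tower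
import Fermat.Agent.H57.CFT.H90Lvl

set_option autoImplicit false

namespace Fermat.Agent.H97.Hasse

open Fermat.Agent.H13.Cft Fermat.Agent.H78.CFT Fermat.Agent.H61.CFT groupCohomology
open Fermat.Agent.H75.Inf2

section

variable {K K' : IntermediateField ℚ Qb} (h : K ≤ K') (F : IntermediateField K Qb)
  (F' : IntermediateField K' Qb) (hFF' : ∀ x : Qb, x ∈ F' ↔ x ∈ F)

/-- The identification `F → F'` of two intermediate fields with the same underlying set. -/
def ltHom : F →* F' where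
  toFun x := ⟨x.1, (hFF' x.1).2 x.2⟩
  map_one' := rfl
  map_mul' _ _ := rfl

/-- The identification `F' → F`. -/
def ltInv : F' →* F where
  toFun x := ⟨x.1, (hFF' x.1).1 x.2⟩
  map_one' := rfl
  map_mul' _ _ := rfl

@[simp] theorem coe_ltHom (x : F) : ((ltHom F F' hFF' x : F') : Qb) = (x : Qb) := rfl

@[simp] theorem coe_ltInv (x : F') : ((ltInv F F' hFF' x : F) : Qb) = (x : Qb) := rfl

theorem coe_units_ltHom (u : Fˣ) :
    (((Units.map (ltHom F F' hFF') u : F'ˣ) : F') : Qb) = ((u : F) : Qb) := rfl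

theorem coe_units_ltInv (u : F'ˣ) :
    (((Units.map (ltInv F F' hFF') u : Fˣ) : F) : Qb) = ((u : F') : Qb) := rfl

theorem ltInv_ltHom (u : Fˣ) :
    Units.map (ltInv F F' hFF') (Units.map (ltHom F F' hFF') u) = u := by
  apply Units.ext
  apply Subtype.ext
  rfl

variable [Normal K F] [Normal K' F']

/-- Restriction `Gal(F'/K') → Gal(F/K)`. -/
noncomputable def ltRes : (F' ≃ₐ[K'] F') →* (F ≃ₐ[K] F) :=
  (resEF K' F').liftOfRightInverse (Function.surjInv (resEF_surjective K' F'))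
    (Function.surjInv_eq (resEF_surjective K' F'))
    ⟨(resEF K F).comp (incl h), fun g hg => by
      rw [MonoidHom.mem_ker, resEF_eq_one_iff] at hg
      rw [MonoidHom.mem_ker, MonoidHom.comp_apply, resEF_eq_one_iff]
      intro x
      exact hg ⟨x.1, (hFF' x.1).2 x.2⟩⟩

theorem ltRes_resEF (g : K'.fixingSubgroup) :
    ltRes h F F' hFF' (resEF K' F' g) = resEF K F (incl h g) :=
  MonoidHom.liftOfRightInverse_comp_apply _ _ _ _ _

theorem ltRes_apply (σ : F' ≃ₐ[K'] F') (x : F) :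
    ((ltRes h F F' hFF' σ x : F) : Qb) = ((σ ⟨x.1, (hFF' x.1).2 x.2⟩ : F') : Qb) := by
  obtain ⟨g, rfl⟩ := resEF_surjective K' F' σ
  rw [ltRes_resEF, resEF_apply, resEF_apply]
  rfl

theorem ltRes_injective : Function.Injective (ltRes h F F' hFF') := by
  rw [injective_iff_map_eq_one]
  intro σ hσ
  ext x
  have := ltRes_apply h F F' hFF' σ ⟨x.1, (hFF' x.1).1 x.2⟩
  rw [hσ] at this
  exact this.symm

end

section main

variable {K K' : IntermediateField ℚ Qb} (h : K ≤ K') (F : IntermediateField K Qb)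
  (F' : IntermediateField K' Qb) (hFF' : ∀ x : Qb, x ∈ F' ↔ x ∈ F)
  [FiniteDimensional K F] [IsGalois K F] [FiniteDimensional K' F'] [IsGalois K' F']

/-- The base change identity: restriction to `G_{K'}` of an inflation from `Gal(F/K)` is the
inflation from `Gal(F/K')` of the restricted cochain. -/
theorem resCochain₂_inflE (c₀ : (F ≃ₐ[K] F) × (F ≃ₐ[K] F) → Fˣ) :
    resCochain₂ h (inflE K F c₀) =
      inflE K' F' (pullCochain (ltRes h F F' hFF') (Units.map (ltHom F F' hFF')) c₀) := by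
  funext x
  apply Units.ext
  show (((c₀ (resEF K F (incl h x.1), resEF K F (incl h x.2)) : Fˣ) : F) : Qb) =
    (((Units.map (ltHom F F' hFF') (c₀ (ltRes h F F' hFF' (resEF K' F' x.1),
      ltRes h F F' hFF' (resEF K' F' x.2))) : F'ˣ) : F') : Qb)
  rw [ltRes_resEF, ltRes_resEF]
  rfl

set_option maxHeartbeats 1000000 in
set_option synthInstance.maxHeartbeats 400000 in
theorem ltHom_smul (σ : F' ≃ₐ[K'] F') (u : Fˣ) :
    Units.map (ltHom F F' hFF') (ltRes h F F' hFF' σ • u) =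
      σ • Units.map (ltHom F F' hFF') u := by
  apply Units.ext
  apply Subtype.ext
  show ((ltRes h F F' hFF' σ (u : F) : F) : Qb) = _
  rw [ltRes_apply]
  rfl

set_option maxHeartbeats 1000000 in
set_option synthInstance.maxHeartbeats 400000 in
theorem ltInv_smul (σ : F' ≃ₐ[K'] F') (u : F'ˣ) :
    Units.map (ltInv F F' hFF') (σ • u) =
      ltRes h F F' hFF' σ • Units.map (ltInv F F' hFF') u := by
  apply Units.ext
  apply Subtype.ext
  show ((σ (u : F') : F') : Qb) = ((ltRes h F F' hFF' σ _ : F) : Qb)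
  rw [ltRes_apply]
  rfl

set_option maxHeartbeats 1000000 in
set_option synthInstance.maxHeartbeats 400000 in
include F' hFF' in
/-- **Level transfer.** -/
theorem levelTransfer (c₀ : (F ≃ₐ[K] F) × (F ≃ₐ[K] F) → Fˣ) (hc₀ : IsMulCocycle₂ c₀) (n : ℕ)
    (hn : IsMulCoboundary₂ (fun x => c₀ x ^ n)) (S : Subgroup (F ≃ₐ[K] F))
    (hS : ∀ σ ∈ S, ∀ x : F, (x : Qb) ∈ K' → σ x = x) (hcop : S.index.Coprime n)
    (hres : IsLvlMulCoboundary₂E K' (resCochain₂ h (inflE K F c₀))) :
    IsMulCoboundary₂ c₀ := by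
  classical
  rw [resCochain₂_inflE h F F' hFF'] at hres
  have hcoc' : IsMulCocycle₂
      (pullCochain (ltRes h F F' hFF') (Units.map (ltHom F F' hFF')) c₀) :=
    isMulCocycle₂_pullCochain _ _ (ltHom_smul h F F' hFF') hc₀
  obtain ⟨y', hy'⟩ := inf2Lvl Fermat.Agent.H57.CFT.h90Lvl K' F' _ hcoc' hres
  -- lifts of the elements of `S`
  have hlift : ∀ σ : S, ∃ σ' : F' ≃ₐ[K'] F', ltRes h F F' hFF' σ' = (σ : F ≃ₐ[K] F) := by
    rintro ⟨σ, hσ⟩
    obtain ⟨g, rfl⟩ := resEF_surjective K F σ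
    have hg : (g : Qb ≃ₐ[ℚ] Qb) ∈ K'.fixingSubgroup := by
      rw [IntermediateField.mem_fixingSubgroup_iff]
      intro x hx
      have hxF' : x ∈ F' := F'.algebraMap_mem ⟨x, hx⟩
      have hxF : x ∈ F := (hFF' x).1 hxF'
      have h1 := hS _ hσ ⟨x, hxF⟩ hx
      have h2 := congrArg (fun z : F => (z : Qb)) h1
      simp only [resEF_apply] at h2
      exact h2
    refine ⟨resEF K' F' ⟨g, hg⟩, ?_⟩
    rw [ltRes_resEF]
    rfl
  choose τ hτ using hlift
  have hτmul : ∀ a b : S, τ (a * b) = τ a * τ b := by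
    intro a b
    apply ltRes_injective h F F' hFF'
    rw [map_mul, hτ, hτ, hτ]
    rfl
  have hfin : S.FiniteIndex := Subgroup.finiteIndex_of_finite
  refine Fermat.Agent.H58.Hasse.isMulCoboundary₂_of_restrict_of_pow S c₀ hc₀ n hn hcop
    ⟨fun s => Units.map (ltInv F F' hFF') (y' (τ s)), fun a b => ?_⟩
  have := congrArg (Units.map (ltInv F F' hFF')) (hy' (τ a) (τ b))
  simp only [pullCochain, map_mul, map_div, ltInv_ltHom] at this
  rw [hτ, hτ, ltInv_smul h F F' hFF', hτ] at this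
  beta_reduce
  rw [hτmul]
  exact this

end main

set_option maxHeartbeats 1000000 in
set_option synthInstance.maxHeartbeats 400000 in
/-- **Level transfer**, in `IsGalDeg` language: `F' = F` viewed over `K'`. -/
theorem levelTransfer_isGalDeg {K K' : IntermediateField ℚ Qb} (h : K ≤ K')
    (F : IntermediateField K Qb) [FiniteDimensional K F] [IsGalois K F]
    (hK'F : K' ≤ F.restrictScalars ℚ) {m : ℕ} (hgd : IsGalDeg hK'F m)
    (c₀ : (F ≃ₐ[K] F) × (F ≃ₐ[K] F) → Fˣ) (hc₀ : IsMulCocycle₂ c₀) (n : ℕ)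
    (hn : IsMulCoboundary₂ (fun x => c₀ x ^ n)) (S : Subgroup (F ≃ₐ[K] F))
    (hS : ∀ σ ∈ S, ∀ x : F, (x : Qb) ∈ K' → σ x = x) (hcop : S.index.Coprime n)
    (hres : IsLvlMulCoboundary₂E K' (resCochain₂ h (inflE K F c₀))) :
    IsMulCoboundary₂ c₀ := by
  have := hgd.fin
  have := hgd.gal
  exact levelTransfer h F (IntermediateField.extendScalars hK'F) (fun x => Iff.rfl) c₀ hc₀ n hn S
    hS hcop hres

end Fermat.Agent.H97.Hasse
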