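/-
P-CFT / [HASSE] (helper97): the field-theoretic half of the Sylow reduction (row HS-F),
as a separate statement.
-/
import Fermat.Agent.H97.Hasse.Interfaces

set_option autoImplicit false

namespace Fermat.Agent.H97.Hasse

open Fermat.Agent.H13.Cft Fermat.Agent.H78.CFT

/-- **[HS-F3] SylowField**: every finite Galois `F₀ / K` lies in a finite Galois `F / K`
(namely `F₀(ζ_p)`) with a subgroup `S ≤ Gal(F/K)` of index prime to `p` (a Sylow `p`-subgroup)
and a field `K ≤ K' ≤ F` fixed pointwise by `S` (its fixed field) such that `F / K'` is Galois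
of degree a power of `p` and `ζ_p ∈ K'`. -/
def SylowFieldStatement : Prop :=
  ∀ (p : ℕ) [Fact p.Prime] (K : IntermediateField ℚ Qb), FiniteDimensional ℚ K →
    ∀ (F₀ : IntermediateField K Qb) [FiniteDimensional K F₀] [IsGalois K F₀],
    ∃ (F : IntermediateField K Qb) (_ : FiniteDimensional K F) (_ : IsGalois K F)
      (S : Subgroup (F ≃ₐ[K] F)) (K' : IntermediateField ℚ Qb) (_ : K ≤ K')
      (hK'F : K' ≤ F.restrictScalars ℚ) (n' : ℕ),
      F₀ ≤ F ∧ FiniteDimensional ℚ K' ∧ (∃ ζ ∈ K', IsPrimitiveRoot ζ p) ∧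
      IsGalDeg hK'F (p ^ n') ∧ (∀ σ ∈ S, ∀ x : F, (x : Qb) ∈ K' → σ x = x) ∧ ¬ p ∣ S.index

end Fermat.Agent.H97.Hasse
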