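/-
P-CFT / [HASSE] (helper97): the cochain half of the Sylow reduction (row HS-F):
`SylowFieldStatement → SylowReductionStatement`.
-/
import Fermat.Agent.H97.Hasse.SylowInterfaces
import Fermat.Agent.H97.Hasse.LevelTransfer
import Fermat.Agent.H75.Inf2Finite
import Fermat.Agent.H75.Inf2InflCob

set_option autoImplicit false

namespace Fermat.Agent.H97.Hasse

open Fermat.Agent.H13.Cft Fermat.Agent.H78.CFT Fermat.Agent.H61.CFT groupCohomology
open Fermat.Agent.H75.Inf2

set_option synthInstance.maxHeartbeats 400000 in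
/-- Powers of 2-cocycles are 2-cocycles. -/
theorem isMulCocycle₂_pow {G M : Type*} [Group G] [CommGroup M] [MulDistribMulAction G M]
    {c : G × G → M} (hc : IsMulCocycle₂ c) (m : ℕ) : IsMulCocycle₂ (fun x => c x ^ m) := by
  intro g h j
  have := congrArg (fun z => z ^ m) (hc g h j)
  simp only [mul_pow, smul_pow'] at this
  simpa only [smul_pow'] using this

set_option synthInstance.maxHeartbeats 400000 in
theorem inflE_pow (K : IntermediateField ℚ Qb) (F : IntermediateField K Qb) [Normal K F]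
    (c : (F ≃ₐ[K] F) × (F ≃ₐ[K] F) → Fˣ) (m : ℕ) :
    inflE K F (fun x => c x ^ m) = fun x => inflE K F c x ^ m := by
  funext x
  simp only [inflE, map_pow]

/-- The restriction to `G_F` of an inflation from `Gal(F/K)` is a level coboundary (of a
constant cochain). -/
theorem isSplitBy_inflE (K : IntermediateField ℚ Qb) (F : IntermediateField K Qb)
    [FiniteDimensional K F] [IsGalois K F] (c : (F ≃ₐ[K] F) × (F ≃ₐ[K] F) → Fˣ) :
    IsSplitBy (le_restrictScalars F) (inflE K F c) := by
  obtain ⟨N, hN⟩ := (lvlE (F.restrictScalars ℚ)).nonempty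
  have hone : ∀ g : (F.restrictScalars ℚ).fixingSubgroup,
      resEF K F (incl (le_restrictScalars F) g) = 1 := by
    intro g
    rw [resEF_eq_one_iff]
    intro x
    exact (IntermediateField.mem_fixingSubgroup_iff _ _).1 g.2 x x.2
  refine ⟨fun _ => Units.map (algebraMap F Qb : F →* Qb) (c (1, 1)), ⟨N, hN, fun _ _ _ => rfl⟩,
    fun gh => ?_⟩
  have hfix : actU ((gh.1 : (F.restrictScalars ℚ).fixingSubgroup) : Qb ≃ₐ[ℚ] Qb)
      (Units.map (algebraMap F Qb : F →* Qb) (c (1, 1))) =
      Units.map (algebraMap F Qb : F →* Qb) (c (1, 1)) := by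
    apply Units.ext
    exact (IntermediateField.mem_fixingSubgroup_iff _ _).1 gh.1.2 _ ((c (1, 1) : Fˣ) : F).2
  rw [resCochain₂_apply]
  simp only [mulD₁E, inflE, hone, hfix, mul_div_cancel_right]

set_option maxHeartbeats 1000000 in
set_option synthInstance.maxHeartbeats 400000 in
/-- **[HS-F]** the Sylow reduction from its field-theoretic half. -/
theorem sylowReduction_of (hF3 : SylowFieldStatement) : SylowReductionStatement := by
  intro p _ K hK c hc hpow
  have hp : p.Prime := Fact.out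
  obtain ⟨n, hpow⟩ := hpow
  obtain ⟨F₀, hF₀fd, hF₀gal, c₀, hc₀, hinfl⟩ := lvl2Finite K c hc.lvl hc.cocycle
  haveI := hF₀fd
  haveI := hF₀gal
  obtain ⟨F, hFfd, hFgal, S, K', h, hK'F, n', hF₀F, hK'fd, hζ, hgd, hS, hidx⟩ := hF3 p K hK F₀
  haveI := hFfd
  haveI := hFgal
  -- inflate to `F`
  have hc₁ : IsMulCocycle₂ (pullCochain (resLF K hF₀F) (unitsInclLF K hF₀F) c₀) :=
    isMulCocycle₂_pullCochain _ _ (fun σ a => unitsInclLF_smul K hF₀F σ a) hc₀
  have hinfl₁ : inflE K F (pullCochain (resLF K hF₀F) (unitsInclLF K hF₀F) c₀) = c := by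
    rw [inflE_pullCochain K F₀ F (resLF K hF₀F) (resLF_resEF K hF₀F) (unitsInclLF K hF₀F)
      (coe_unitsInclLF K hF₀F) c₀, hinfl]
  refine ⟨K', F.restrictScalars ℚ, h, hK'F, n', hK'fd, hζ, hgd, ?_, ?_⟩
  · have := isSplitBy_inflE K F (pullCochain (resLF K hF₀F) (unitsInclLF K hF₀F) c₀)
    rw [hinfl₁] at this
    exact this
  · intro hres
    rw [← hinfl₁]
    apply inflCoboundary K F
    have hn : IsMulCoboundary₂
        (fun x => pullCochain (resLF K hF₀F) (unitsInclLF K hF₀F) c₀ x ^ p ^ n) := by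
      apply inf2Lvl Fermat.Agent.H57.CFT.h90Lvl K F _ (isMulCocycle₂_pow hc₁ _)
      rw [inflE_pow, hinfl₁]
      exact hpow
    have hcop : S.index.Coprime (p ^ n) :=
      Nat.Coprime.pow_right n ((Nat.Prime.coprime_iff_not_dvd hp).2 hidx).symm
    refine levelTransfer_isGalDeg h F hK'F hgd _ hc₁ (p ^ n) hn S hS hcop ?_
    rw [hinfl₁]
    exact hres

end Fermat.Agent.H97.Hasse
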